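/-
S55 (Poitou–Tate), layer G, leaf G-DESC (helper773): base change maps for an extension of
number fields `L/K`:

* `asBase   : K ⊗ ℚ_S →ₐ[ℚ] L ⊗ ℚ_S`;
* `lBase    : Kˣ → Lˣ`,  `jBase : J_S(K) → J_S(L)`;
* `primeUnder`, `primeOutUnder` : primes of `L` (outside `S`) → primes of `K` (outside `S`);
* `eAt w`   : the ramification index of `w` over `K`;
* `divBase  : Div^S(K) → Div^S(L)`,  `(divBase d) w = e(w) * d (w ∩ K)`;
* `jdBase`, `cBase : C_S(K) → C_S(L)`.

(complete proofs)
-/
import Fermat.Agent.S55.G.Defs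

set_option autoImplicit false
set_option linter.unusedSectionVars false

open scoped NumberField TensorProduct
open IsDedekindDomain

noncomputable section

namespace Fermat.Agent.S55.G.DescH773

open Fermat.Agent.S55.G

/-! ## 1. Adèles and units -/

section Units

variable (S : Finset Nat.Primes) (K L : Type) [Field K] [CharZero K] [Field L] [CharZero L]
  [Algebra K L]

/-- The inclusion `K → L` as a `ℚ`-algebra homomorphism. -/
def fieldBase : K →ₐ[ℚ] L := (algebraMap K L).toRatAlgHom

@[simp] lemma fieldBase_apply (x : K) : fieldBase K L x = algebraMap K L x := rfl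

/-- The base change map `K ⊗ ℚ_S → L ⊗ ℚ_S`. -/
def asBase : AS S K →ₐ[ℚ] AS S L :=
  Algebra.TensorProduct.map (fieldBase K L) (AlgHom.id ℚ (QS S))

@[simp] lemma asBase_tmul (x : K) (y : QS S) :
    asBase S K L (x ⊗ₜ[ℚ] y) = (algebraMap K L x) ⊗ₜ[ℚ] y := by
  simp [asBase]

lemma asBase_asDiag (x : K) : asBase S K L (asDiag S K x) = asDiag S L (algebraMap K L x) := by
  simp

/-- `Kˣ → Lˣ`, additively. -/
def lBase : Additive Kˣ →+ Additive Lˣ :=
  MonoidHom.toAdditive (Units.map ((algebraMap K L : K →+* L) : K →* L))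

lemma coe_lBase_apply (x : Additive Kˣ) :
    (((lBase K L x).toMul : Lˣ) : L) = algebraMap K L ((x.toMul : Kˣ) : K) := rfl

lemma lBase_injective : Function.Injective (lBase K L) := by
  intro x y h
  apply Additive.toMul.injective
  apply Units.ext
  apply (algebraMap K L).injective
  have := congrArg (fun z : Additive Lˣ => ((z.toMul : Lˣ) : L)) h
  simpa only [coe_lBase_apply] using this

/-- `J_S(K) → J_S(L)`, additively. -/
def jBase : Additive (AS S K)ˣ →+ Additive (AS S L)ˣ :=
  MonoidHom.toAdditive (Units.map ((asBase S K L : AS S K →ₐ[ℚ] AS S L) : AS S K →* AS S L))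

lemma coe_jBase_apply (x : Additive (AS S K)ˣ) :
    (((jBase S K L x).toMul : (AS S L)ˣ) : AS S L) =
      asBase S K L ((x.toMul : (AS S K)ˣ) : AS S K) := rfl

lemma jBase_unitsDiag (x : Additive Kˣ) :
    jBase S K L (unitsDiag S K x) = unitsDiag S L (lBase K L x) := by
  apply Additive.toMul.injective
  apply Units.ext
  rw [coe_jBase_apply, coe_unitsDiag_apply, coe_unitsDiag_apply, coe_lBase_apply, asBase_asDiag]

end Units

/-! ## 2. Primes -/

section Primes

variable (S : Finset Nat.Primes) (K L : Type) [Field K] [NumberField K] [Field L] [NumberField L]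
  [Algebra K L]


variable {L} in
/-- The prime of `K` below a finite prime `w` of `L`. -/
def primeUnder (w : HeightOneSpectrum (𝓞 L)) : HeightOneSpectrum (𝓞 K) where
  asIdeal := w.asIdeal.under (𝓞 K)
  isPrime := inferInstance
  ne_bot := Ideal.under_ne_bot (𝓞 K) w.ne_bot

variable {L} in
instance primeUnder_liesOver (w : HeightOneSpectrum (𝓞 L)) :
    w.asIdeal.LiesOver (primeUnder K w).asIdeal := ⟨rfl⟩

variable {L} in
lemma mem_primeUnder_iff (w : HeightOneSpectrum (𝓞 L)) (x : 𝓞 K) :
    x ∈ (primeUnder K w).asIdeal ↔ algebraMap (𝓞 K) (𝓞 L) x ∈ w.asIdeal := Iff.rfl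

variable {L} in
lemma isAbove_primeUnder_iff (w : HeightOneSpectrum (𝓞 L)) :
    IsAbove S K (primeUnder K w) ↔ IsAbove S L w := by
  unfold IsAbove
  simp only [mem_primeUnder_iff, map_natCast]

/-- The prime of `K` outside `S` below a prime of `L` outside `S`. -/
def primeOutUnder (w : PrimeOut S L) : PrimeOut S K :=
  ⟨primeUnder K w.1, fun h => w.2 ((isAbove_primeUnder_iff S K w.1).1 h)⟩

lemma primeOutUnder_val (w : PrimeOut S L) : (primeOutUnder S K L w).1 = primeUnder K w.1 := rfl

variable {K} in
lemma exists_primeUnder_eq (v : HeightOneSpectrum (𝓞 K)) :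
    ∃ w : HeightOneSpectrum (𝓞 L), primeUnder K w = v := by
  obtain ⟨Q, hQ, hQv⟩ := Ideal.exists_maximal_ideal_liesOver_of_isIntegral (S := 𝓞 L) v.asIdeal
  have hQ0 : Q ≠ ⊥ := Ideal.ne_bot_of_liesOver_of_ne_bot v.ne_bot Q
  refine ⟨⟨Q, hQ.isPrime, hQ0⟩, ?_⟩
  apply HeightOneSpectrum.ext
  exact (hQv.over).symm

lemma primeOutUnder_surjective : Function.Surjective (primeOutUnder S K L) := by
  intro v
  obtain ⟨w, hw⟩ := exists_primeUnder_eq L v.1
  refine ⟨⟨w, fun h => v.2 ?_⟩, Subtype.ext hw⟩
  rw [← hw]
  exact (isAbove_primeUnder_iff S K w).2 h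

variable {K} in
lemma primeUnder_fiber_finite (v : HeightOneSpectrum (𝓞 K)) :
    {w : HeightOneSpectrum (𝓞 L) | primeUnder K w = v}.Finite := by
  have h1 : (Ideal.primesOver v.asIdeal (𝓞 L)).Finite := by
    rw [← IsDedekindDomain.coe_primesOverFinset v.ne_bot]
    exact Finset.finite_toSet _
  refine Set.Finite.of_finite_image (f := fun w => w.asIdeal) (h1.subset ?_) ?_
  · rintro _ ⟨w, hw, rfl⟩
    refine ⟨w.isPrime, ?_⟩
    rw [← (show primeUnder K w = v from hw)]
    infer_instance
  · intro a _ b _ h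
    exact HeightOneSpectrum.ext h

lemma primeOutUnder_fiber_finite (v : PrimeOut S K) :
    {w : PrimeOut S L | primeOutUnder S K L w = v}.Finite := by
  refine Set.Finite.of_finite_image (f := Subtype.val)
    ((primeUnder_fiber_finite L v.1).subset ?_) Subtype.val_injective.injOn
  rintro _ ⟨w, hw, rfl⟩
  exact congrArg Subtype.val hw

end Primes

/-! ## 3. Ramification indices, the order maps and divisors -/

section Ord

variable (S : Finset Nat.Primes) (K L : Type) [Field K] [NumberField K] [Field L] [NumberField L]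
  [Algebra K L]

variable {L} in
/-- The ramification index of the finite prime `w` of `L` over `K`. -/
def eAt (w : HeightOneSpectrum (𝓞 L)) : ℕ :=
  Ideal.ramificationIdx' (primeUnder K w).asIdeal w.asIdeal

variable {L} in
lemma eAt_ne_zero (w : HeightOneSpectrum (𝓞 L)) : eAt K w ≠ 0 :=
  Ideal.IsDedekindDomain.ramificationIdx'_ne_zero_of_liesOver w.asIdeal (primeUnder K w).ne_bot

variable {L} in
lemma valuation_algebraMap (w : HeightOneSpectrum (𝓞 L)) (x : K) :
    w.valuation L (algebraMap K L x) = (primeUnder K w).valuation K x ^ eAt K w :=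
  (HeightOneSpectrum.valuation_liesOver L (primeUnder K w) w x).symm

variable {L} in
/-- `ord_w(x) = e(w) · ord_v(x)` for `x ∈ Kˣ`, `v = w ∩ K`. -/
lemma ordAt_lBase (w : HeightOneSpectrum (𝓞 L)) (x : Additive Kˣ) :
    ordAt w (lBase K L x) = (eAt K w : ℤ) * ordAt (primeUnder K w) x := by
  rw [ordAt_apply, ordAt_apply, coe_lBase_apply, valuation_algebraMap, WithZero.log_pow]
  simp

/-- The base change of divisors `Div^S(K) → Div^S(L)`: `(divBase d) w = e(w) · d (w ∩ K)`,
i.e. `[v] ↦ ∑_{w | v} e(w|v) [w]`. -/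
def divBase : (PrimeOut S K →₀ ℤ) →+ (PrimeOut S L →₀ ℤ) where
  toFun d := Finsupp.ofSupportFinite
    (fun w : PrimeOut S L => (eAt K w.1 : ℤ) * d (primeOutUnder S K L w)) (by
      refine ((d.support.finite_toSet).biUnion
        (fun v _ => primeOutUnder_fiber_finite S K L v)).subset ?_
      intro w hw
      simp only [Function.mem_support, ne_eq, mul_eq_zero, not_or] at hw
      simp only [Set.mem_iUnion, Set.mem_ofPred_eq, Finset.mem_coe, Finsupp.mem_support_iff]
      exact ⟨primeOutUnder S K L w, hw.2, rfl⟩)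
  map_zero' := by
    ext w
    simp [Finsupp.ofSupportFinite_coe]
  map_add' x y := by
    ext w
    simp [Finsupp.ofSupportFinite_coe, mul_add]

@[simp] lemma divBase_apply (d : PrimeOut S K →₀ ℤ) (w : PrimeOut S L) :
    divBase S K L d w = (eAt K w.1 : ℤ) * d (primeOutUnder S K L w) := rfl

lemma divBase_ordHom (x : Additive Kˣ) :
    divBase S K L (ordHom S K x) = ordHom S L (lBase K L x) := by
  ext w
  rw [divBase_apply, ordHom_apply, ordHom_apply, ordAt_lBase, primeOutUnder_val]

lemma divBase_injective : Function.Injective (divBase S K L) := by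
  rw [injective_iff_map_eq_zero]
  intro d hd
  ext v
  obtain ⟨w, rfl⟩ := primeOutUnder_surjective S K L v
  have := DFunLike.congr_fun hd w
  rw [divBase_apply, Finsupp.zero_apply, mul_eq_zero] at this
  rcases this with h | h
  · exact absurd (by exact_mod_cast h) (eAt_ne_zero K w.1)
  · simpa using h

end Ord

/-! ## 4. The class group -/

section ClassGroup

variable (S : Finset Nat.Primes) (K L : Type) [Field K] [NumberField K] [Field L] [NumberField L]
  [Algebra K L]

/-- The base change `J_S(K) × Div^S(K) → J_S(L) × Div^S(L)`. -/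
def jdBase : JD S K →+ JD S L := (jBase S K L).prodMap (divBase S K L)

@[simp] lemma jdBase_fst (y : JD S K) : (jdBase S K L y).1 = jBase S K L y.1 := rfl

@[simp] lemma jdBase_snd (y : JD S K) : (jdBase S K L y).2 = divBase S K L y.2 := rfl

lemma jdBase_diagHom (x : Additive Kˣ) :
    jdBase S K L (diagHom S K x) = diagHom S L (lBase K L x) :=
  Prod.ext (jBase_unitsDiag S K L x) (divBase_ordHom S K L x)

lemma principal_le_comap_jdBase :
    principal S K ≤ (principal S L).comap (jdBase S K L).toIntLinearMap := by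
  rintro _ ⟨x, rfl⟩
  exact ⟨lBase K L x, (jdBase_diagHom S K L x).symm⟩

/-- The base change map on `S`-idèle class groups `C_S(K) → C_S(L)`. -/
def cBaseₗ : CS S K →ₗ[ℤ] CS S L :=
  (principal S K).mapQ (principal S L) (jdBase S K L).toIntLinearMap
    (principal_le_comap_jdBase S K L)

/-- The base change map on `S`-idèle class groups `C_S(K) → C_S(L)`. -/
def cBase : CS S K →+ CS S L := (cBaseₗ S K L).toAddMonoidHom

@[simp] lemma cBase_mk (y : JD S K) :
    cBase S K L (Submodule.Quotient.mk y) = Submodule.Quotient.mk (jdBase S K L y) := rfl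

end ClassGroup

/-! ## 5. The representations on representatives -/

section Rep

variable (S : Finset Nat.Primes) (G L : Type) [Group G] [Field L] [NumberField L]
  [MulSemiringAction G L]

lemma jdRepr_apply (g : G) (y : JD S L) :
    jdRepr S G L g y = (jRepr G S L g y.1, divRepr S G L g y.2) := rfl

lemma cRepr_mk (g : G) (y : JD S L) :
    cRepr S G L g (Submodule.Quotient.mk y) = Submodule.Quotient.mk (jdRepr S G L g y) := rfl

end Rep

end Fermat.Agent.S55.G.DescH773
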