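/-
S55 (Poitou–Tate), layer G, leaf G-DESC (helper773): Galois descent for the `S`-idèle class
group.  For a finite Galois extension `L/K` of number fields with group `G`
(`IsGaloisGroup G K L`), `S ≠ ∅`, and `L/K` unramified outside `S`:

  `cBase S K L : C_S(K) → C_S(L)` is injective with image `C_S(L)^G`.

Ingredients: Hilbert 90, `(L ⊗ ℚ_S)^G = K ⊗ ℚ_S` (averaging), transitivity of `G` on the primes
above a prime of `K`.
-/
import Fermat.Agent.S55.G.DescH773.Base

set_option autoImplicit false
set_option linter.unusedSectionVars false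
set_option linter.style.haveILetI false

open scoped NumberField TensorProduct Pointwise
open IsDedekindDomain

noncomputable section

namespace Fermat.Agent.S55.G.DescH773

open Fermat.Agent.S55.G

/-! ## 1. Averaging over `G` -/

section Average

variable (S : Finset Nat.Primes) (G K L : Type) [Group G] [Finite G] [Field K] [CharZero K]
  [Field L] [CharZero L] [Algebra K L] [MulSemiringAction G L] [IsGaloisGroup G K L]

/-- The averaging operator `x ↦ |G|⁻¹ ∑_g g x` on `L`. -/
def avgL : L →ₗ[ℚ] L :=
  letI := Fintype.ofFinite G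
  (Nat.card G : ℚ)⁻¹ • ∑ g : G, (fieldAut G L g).toLinearMap

lemma avgL_apply [Fintype G] (x : L) :
    avgL G L x = (Nat.card G : ℚ)⁻¹ • ∑ g : G, g • x := by
  unfold avgL
  rw [LinearMap.smul_apply, LinearMap.sum_apply]
  congr 1
  refine Finset.sum_congr (by ext; simp) fun g _ => rfl

lemma card_ne_zero : (Nat.card G : ℚ) ≠ 0 := by
  exact_mod_cast (Nat.card_pos (α := G)).ne'

lemma smul_avgL (g : G) (x : L) : g • avgL G L x = avgL G L x := by
  let _ := Fintype.ofFinite G
  rw [avgL_apply, smul_comm, Finset.smul_sum]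
  congr 1
  simp only [smul_smul]
  exact Fintype.sum_bijective (fun h => g * h) (Group.mulLeft_bijective g) _ _ (fun _ => rfl)

lemma avgL_of_fixed (x : L) (hx : ∀ g : G, g • x = x) : avgL G L x = x := by
  let _ := Fintype.ofFinite G
  rw [avgL_apply]
  simp only [hx, Finset.sum_const, Finset.card_univ, ← Nat.card_eq_fintype_card]
  rw [← Nat.cast_smul_eq_nsmul ℚ, smul_smul, inv_mul_cancel₀ (card_ne_zero G), one_smul]

lemma avgL_algebraMap (k : K) : avgL G L (algebraMap K L k) = algebraMap K L k := by
  have := IsGaloisGroup.commutes (G := G) (A := K) (B := L)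
  exact avgL_of_fixed G L _ fun g => smul_algebraMap g k

lemma exists_algebraMap_eq_avgL (x : L) : ∃ k : K, algebraMap K L k = avgL G L x :=
  (IsGaloisGroup.isInvariant (G := G) (A := K) (B := L)).isInvariant _ (fun g => smul_avgL G L g x)

lemma exists_algebraMap_eq_of_fixed (x : L) (hx : ∀ g : G, g • x = x) :
    ∃ k : K, algebraMap K L k = x :=
  (IsGaloisGroup.isInvariant (G := G) (A := K) (B := L)).isInvariant _ hx

/-- A `ℚ`-linear retraction `L → K` of the inclusion (the normalised trace). -/
def retrL : L →ₗ[ℚ] K :=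
  (LinearEquiv.ofInjective (fieldBase K L).toLinearMap (algebraMap K L).injective).symm.toLinearMap ∘ₗ
    (avgL G L).codRestrict (LinearMap.range (fieldBase K L).toLinearMap) (fun x => by
      obtain ⟨k, hk⟩ := exists_algebraMap_eq_avgL G K L x
      exact ⟨k, hk⟩)

lemma algebraMap_retrL (x : L) : algebraMap K L (retrL G K L x) = avgL G L x := by
  unfold retrL
  have := LinearEquiv.apply_symm_apply
    (LinearEquiv.ofInjective (fieldBase K L).toLinearMap (algebraMap K L).injective)
    ((avgL G L).codRestrict (LinearMap.range (fieldBase K L).toLinearMap) (fun x => by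
      obtain ⟨k, hk⟩ := exists_algebraMap_eq_avgL G K L x
      exact ⟨k, hk⟩) x)
  exact congrArg Subtype.val this

lemma fieldBase_comp_retrL :
    (fieldBase K L).toLinearMap ∘ₗ retrL G K L = avgL G L :=
  LinearMap.ext fun x => algebraMap_retrL G K L x

lemma retrL_comp_fieldBase :
    retrL G K L ∘ₗ (fieldBase K L).toLinearMap = LinearMap.id := by
  refine LinearMap.ext fun k => (algebraMap K L).injective ?_
  change algebraMap K L (retrL G K L (algebraMap K L k)) = algebraMap K L k
  rw [algebraMap_retrL, avgL_algebraMap]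

end Average

/-! ## 2. Invariants of `L ⊗ ℚ_S` and of the `S`-idèles -/

section Tensor

variable (S : Finset Nat.Primes) (G K L : Type) [Group G] [Finite G] [Field K] [CharZero K]
  [Field L] [CharZero L] [Algebra K L] [MulSemiringAction G L] [IsGaloisGroup G K L]

lemma asAut_toLinearMap (g : G) :
    (asAut S G L g).toLinearMap = LinearMap.rTensor (QS S) (fieldAut G L g).toLinearMap := by
  ext x y
  simp

lemma asBase_toLinearMap :
    (asBase S K L).toLinearMap = LinearMap.rTensor (QS S) (fieldBase K L).toLinearMap := by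
  ext x y
  simp

lemma rTensor_avgL_of_fixed (t : AS S L) (ht : ∀ g : G, asAut S G L g t = t) :
    LinearMap.rTensor (QS S) (avgL G L) t = t := by
  letI := Fintype.ofFinite G
  have h1 : LinearMap.rTensor (QS S) (avgL G L) =
      (Nat.card G : ℚ)⁻¹ • ∑ g : G, (asAut S G L g).toLinearMap := by
    refine TensorProduct.ext' fun x y => ?_
    rw [LinearMap.rTensor_tmul, avgL_apply, LinearMap.smul_apply, LinearMap.sum_apply,
      ← TensorProduct.smul_tmul', TensorProduct.sum_tmul]
    simp
  rw [h1, LinearMap.smul_apply, LinearMap.sum_apply]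
  simp only [AlgEquiv.toLinearMap_apply, ht, Finset.sum_const, Finset.card_univ,
    ← Nat.card_eq_fintype_card]
  rw [← Nat.cast_smul_eq_nsmul ℚ, smul_smul, inv_mul_cancel₀ (card_ne_zero G), one_smul]

include G in
lemma asBase_injective : Function.Injective (asBase S K L) := by
  have h : LinearMap.rTensor (QS S) (retrL G K L) ∘ₗ (asBase S K L).toLinearMap =
      LinearMap.id := by
    rw [asBase_toLinearMap, ← LinearMap.rTensor_comp, retrL_comp_fieldBase, LinearMap.rTensor_id]
  exact Function.LeftInverse.injective (g := LinearMap.rTensor (QS S) (retrL G K L))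
    fun x => LinearMap.congr_fun h x

lemma exists_asBase_eq_of_fixed (t : AS S L) (ht : ∀ g : G, asAut S G L g t = t) :
    ∃ s : AS S K, asBase S K L s = t := by
  refine ⟨LinearMap.rTensor (QS S) (retrL G K L) t, ?_⟩
  have h : (asBase S K L).toLinearMap ∘ₗ LinearMap.rTensor (QS S) (retrL G K L) =
      LinearMap.rTensor (QS S) (avgL G L) := by
    rw [asBase_toLinearMap, ← LinearMap.rTensor_comp, fieldBase_comp_retrL]
  exact (LinearMap.congr_fun h t).trans (rTensor_avgL_of_fixed S G L t ht)

lemma asAut_asBase (g : G) (s : AS S K) : asAut S G L g (asBase S K L s) = asBase S K L s := by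
  have := IsGaloisGroup.commutes (G := G) (A := K) (B := L)
  induction s using TensorProduct.induction_on with
  | zero => simp
  | tmul a b => simp [smul_algebraMap]
  | add a b ha hb => simp only [map_add, ha, hb]

/-- `(L ⊗ ℚ_S)^G = K ⊗ ℚ_S`. -/
lemma mem_range_asBase_iff (t : AS S L) :
    (∃ s : AS S K, asBase S K L s = t) ↔ ∀ g : G, asAut S G L g t = t :=
  ⟨by rintro ⟨s, rfl⟩ g; exact asAut_asBase S G K L g s, exists_asBase_eq_of_fixed S G K L t⟩

/-- `J_S(L)^G = J_S(K)`. -/
lemma exists_jBase_eq_of_fixed (u : Additive (AS S L)ˣ) (hu : ∀ g : G, jRepr G S L g u = u) :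
    ∃ u' : Additive (AS S K)ˣ, jBase S K L u' = u := by
  have h1 : ∀ g : G, asAut S G L g ((u.toMul : (AS S L)ˣ) : AS S L) = (u.toMul : (AS S L)ˣ) := by
    intro g
    rw [← coe_jRepr_apply, hu g]
  have h2 : ∀ g : G, asAut S G L g (((u.toMul)⁻¹ : (AS S L)ˣ) : AS S L) =
      ((u.toMul)⁻¹ : (AS S L)ˣ) := by
    intro g
    have := hu g
    have h3 : jRepr G S L g (-u) = -u := by rw [map_neg, hu g]
    have := coe_jRepr_apply G S L g (-u)
    rw [h3] at this
    exact this.symm
  obtain ⟨s, hs⟩ := exists_asBase_eq_of_fixed S G K L _ h1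
  obtain ⟨s', hs'⟩ := exists_asBase_eq_of_fixed S G K L _ h2
  have hss' : s * s' = 1 := by
    apply asBase_injective S G K L
    rw [map_mul, hs, hs', map_one, Units.mul_inv]
  refine ⟨Additive.ofMul (Units.mkOfMulEqOne s s' hss'), ?_⟩
  apply Additive.toMul.injective
  apply Units.ext
  rw [coe_jBase_apply]
  exact hs

lemma jRepr_jBase (g : G) (u : Additive (AS S K)ˣ) :
    jRepr G S L g (jBase S K L u) = jBase S K L u := by
  apply Additive.toMul.injective
  apply Units.ext
  rw [coe_jRepr_apply, coe_jBase_apply, asAut_asBase]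

include G in
lemma jBase_injective : Function.Injective (jBase S K L) := by
  intro x y h
  apply Additive.toMul.injective
  apply Units.ext
  apply asBase_injective S G K L
  have := congrArg (fun z : Additive (AS S L)ˣ => ((z.toMul : (AS S L)ˣ) : AS S L)) h
  simpa only [coe_jBase_apply] using this

end Tensor

/-! ## 3. Invariants of the divisors -/

section Div

variable (S : Finset Nat.Primes) (G K L : Type) [Group G] [Finite G] [Field K] [NumberField K]
  [Field L] [NumberField L] [Algebra K L] [MulSemiringAction G L] [IsGaloisGroup G K L]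

variable {L} in
lemma primeUnder_primeSMul (g : G) (w : HeightOneSpectrum (𝓞 L)) :
    primeUnder K (primeSMul G g w) = primeUnder K w := by
  apply HeightOneSpectrum.ext
  have := IsGaloisGroup.commutes (G := G) (A := 𝓞 K) (B := 𝓞 L)
  ext x
  rw [mem_primeUnder_iff, mem_primeUnder_iff, mem_primeSMul_iff, smul_algebraMap]

lemma primeOutUnder_primeOutMap (g : G) (w : PrimeOut S L) :
    primeOutUnder S K L (primeOutMap S G L g w) = primeOutUnder S K L w :=
  Subtype.ext (primeUnder_primeSMul G K g w.1)

variable {L} in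
/-- `G` acts transitively on the primes of `L` above a prime of `K`. -/
lemma exists_primeSMul_eq (w w' : HeightOneSpectrum (𝓞 L))
    (h : primeUnder K w = primeUnder K w') : ∃ g : G, primeSMul G g w = w' := by
  haveI : w'.asIdeal.LiesOver (primeUnder K w).asIdeal := by rw [h]; infer_instance
  obtain ⟨g, hg⟩ := Ideal.exists_smul_eq_of_isGaloisGroup (primeUnder K w).asIdeal
    w.asIdeal w'.asIdeal G
  exact ⟨g, HeightOneSpectrum.ext hg⟩

lemma exists_primeOutMap_eq (w w' : PrimeOut S L)
    (h : primeOutUnder S K L w = primeOutUnder S K L w') :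
    ∃ g : G, primeOutMap S G L g w = w' := by
  obtain ⟨g, hg⟩ := exists_primeSMul_eq G K w.1 w'.1 (congrArg Subtype.val h)
  exact ⟨g, Subtype.ext hg⟩

lemma apply_primeOutMap_of_fixed (d : PrimeOut S L →₀ ℤ) (hd : ∀ g : G, divRepr S G L g d = d)
    (g : G) (w : PrimeOut S L) : d (primeOutMap S G L g w) = d w := by
  conv_lhs => rw [← hd g]
  exact divRepr_apply_apply S G L g d w

lemma apply_eq_of_fixed (d : PrimeOut S L →₀ ℤ) (hd : ∀ g : G, divRepr S G L g d = d)
    (w w' : PrimeOut S L) (h : primeOutUnder S K L w = primeOutUnder S K L w') : d w = d w' := by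
  obtain ⟨g, rfl⟩ := exists_primeOutMap_eq S G K L w w' h
  exact (apply_primeOutMap_of_fixed S G L d hd g w).symm

/-- `Div^S(L)^G = Div^S(K)` when `L/K` is unramified outside `S`. -/
lemma exists_divBase_eq_of_fixed (hur : ∀ w : PrimeOut S L, eAt K w.1 = 1)
    (d : PrimeOut S L →₀ ℤ) (hd : ∀ g : G, divRepr S G L g d = d) :
    ∃ d' : PrimeOut S K →₀ ℤ, divBase S K L d' = d := by
  classical
  let sec : PrimeOut S K → PrimeOut S L := Function.surjInv (primeOutUnder_surjective S K L)
  have hsec : ∀ v, primeOutUnder S K L (sec v) = v :=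
    Function.surjInv_eq (primeOutUnder_surjective S K L)
  refine ⟨Finsupp.onFinset (d.support.image (primeOutUnder S K L)) (fun v => d (sec v)) ?_, ?_⟩
  · intro v hv
    rw [Finset.mem_image]
    exact ⟨sec v, Finsupp.mem_support_iff.2 hv, hsec v⟩
  · ext w
    rw [divBase_apply, hur w, Finsupp.onFinset_apply, Nat.cast_one, one_mul]
    exact apply_eq_of_fixed S G K L d hd _ _ (hsec _)

variable {L} in
lemma eAt_primeSMul (g : G) (w : HeightOneSpectrum (𝓞 L)) :
    eAt K (primeSMul G g w) = eAt K w := by
  -- both are characterised by `ord_w(x) = e · ord_v(x)` for `x ∈ Kˣ`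
  obtain ⟨π, hπ⟩ := (primeUnder K w).valuation_exists_uniformizer K
  have hπ0 : π ≠ 0 := by
    rintro rfl
    rw [map_zero] at hπ
    exact WithZero.exp_ne_zero hπ.symm
  have := IsGaloisGroup.commutes (G := G) (A := K) (B := L)
  let x : Additive Kˣ := Additive.ofMul (Units.mk0 π hπ0)
  have hx : lRepr G L g (lBase K L x) = lBase K L x := by
    apply Additive.toMul.injective
    apply Units.ext
    rw [coe_lRepr_apply, coe_lBase_apply, smul_algebraMap]
  have h1 := ordAt_primeSMul G g w (lBase K L x)
  rw [hx, ordAt_lBase, ordAt_lBase, primeUnder_primeSMul] at h1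
  have h2 : ordAt (primeUnder K w) x ≠ 0 := by
    rw [ordAt_apply]
    change -WithZero.log ((primeUnder K w).valuation K π) ≠ 0
    rw [hπ]
    simp
  exact_mod_cast mul_right_cancel₀ h2 h1

lemma divRepr_divBase (g : G) (d : PrimeOut S K →₀ ℤ) :
    divRepr S G L g (divBase S K L d) = divBase S K L d := by
  ext w
  have hw : w = primeOutMap S G L g (primeOutMap S G L g⁻¹ w) := by
    rw [← primeOutMap_mul, mul_inv_cancel, primeOutMap_one]
  conv_lhs => rw [hw]
  rw [divRepr_apply_apply, divBase_apply, divBase_apply, primeOutUnder_primeOutMap,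
    primeOutMap_val, eAt_primeSMul]

end Div

/-! ## 4. Hilbert 90 and injectivity of the diagonal -/

section Hilbert90

variable (G K L : Type) [Group G] [Finite G] [Field K] [Field L] [Algebra K L]
  [MulSemiringAction G L] [IsGaloisGroup G K L]

include K in
/-- Hilbert 90 for `Lˣ` in the additive notation of `lRepr`: every `1`-cocycle
`x (g h) = x g + g • x h` is a coboundary `x g = g • β - β`. -/
lemma hilbert90 (x : G → Additive Lˣ)
    (hx : ∀ g h : G, x (g * h) = x g + lRepr G L g (x h)) :
    ∃ β : Additive Lˣ, ∀ g : G, x g = lRepr G L g β - β := by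
  haveI : FiniteDimensional K L := IsGaloisGroup.finiteDimensional G K L
  let e : G ≃* Gal(L/K) := IsGaloisGroup.mulEquivAlgEquiv G K L
  have he : ∀ (g : G) (y : L), e g y = g • y := fun g y => rfl
  let f : Gal(L/K) → Lˣ := fun σ => (x (e.symm σ)).toMul
  have hf : groupCohomology.IsMulCocycle₁ f := by
    intro σ τ
    change (x (e.symm (σ * τ))).toMul = σ • (x (e.symm τ)).toMul * (x (e.symm σ)).toMul
    rw [map_mul, hx, mul_comm]
    apply Units.ext
    change _ = ((x (e.symm σ)).toMul : L) * σ ((x (e.symm τ)).toMul : L)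
    rw [toMul_add, Units.val_mul, coe_lRepr_apply, ← he, MulEquiv.apply_symm_apply]
  obtain ⟨β, hβ⟩ := groupCohomology.isMulCoboundary₁_of_isMulCocycle₁_of_aut_to_units f hf
  refine ⟨Additive.ofMul β, fun g => ?_⟩
  have h := hβ (e g)
  simp only [f, MulEquiv.symm_apply_apply] at h
  apply Additive.toMul.injective
  rw [← h]
  apply Units.ext
  rw [toMul_sub, div_eq_mul_inv, div_eq_mul_inv]
  rfl

end Hilbert90

section DiagInj

variable (S : Finset Nat.Primes) (L : Type) [Field L] [CharZero L]

lemma nontrivial_QS (hS : S.Nonempty) : Nontrivial (QS S) := by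
  obtain ⟨q, hq⟩ := hS
  haveI : Nonempty S := ⟨⟨q, hq⟩⟩
  exact inferInstanceAs (Nontrivial (∀ q : S, Qq q.1))

lemma asDiag_injective (hS : S.Nonempty) : Function.Injective (asDiag S L) := by
  haveI := nontrivial_QS S hS
  exact Algebra.TensorProduct.includeLeft_injective (algebraMap ℚ (QS S)).injective

lemma unitsDiag_injective (hS : S.Nonempty) : Function.Injective (unitsDiag S L) := by
  intro x y h
  apply Additive.toMul.injective
  apply Units.ext
  apply asDiag_injective S L hS
  have := congrArg (fun z : Additive (AS S L)ˣ => ((z.toMul : (AS S L)ˣ) : AS S L)) h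
  simpa only [coe_unitsDiag_apply] using this

end DiagInj

/-! ## 5. Galois descent for `C_S` -/

section Main

variable (S : Finset Nat.Primes) (G K L : Type) [Group G] [Finite G] [Field K] [NumberField K]
  [Field L] [NumberField L] [Algebra K L] [MulSemiringAction G L] [IsGaloisGroup G K L]

lemma diagHom_injective (hS : S.Nonempty) : Function.Injective (diagHom S L) := fun _ _ h =>
  unitsDiag_injective S L hS (congrArg Prod.fst h)

lemma jdRepr_jdBase (g : G) (y : JD S K) :
    jdRepr S G L g (jdBase S K L y) = jdBase S K L y := by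
  rw [jdRepr_apply]
  exact Prod.ext (jRepr_jBase S G K L g y.1) (divRepr_divBase S G K L g y.2)

include G in
lemma jdBase_injective : Function.Injective (jdBase S K L) := fun _ _ h =>
  Prod.ext (jBase_injective S G K L (congrArg Prod.fst h))
    (divBase_injective S K L (congrArg Prod.snd h))

lemma exists_jdBase_eq_of_fixed (hur : ∀ w : PrimeOut S L, eAt K w.1 = 1) (y : JD S L)
    (hy : ∀ g : G, jdRepr S G L g y = y) : ∃ y' : JD S K, jdBase S K L y' = y := by
  obtain ⟨u, hu⟩ := exists_jBase_eq_of_fixed S G K L y.1 (fun g => congrArg Prod.fst (hy g))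
  obtain ⟨d, hd⟩ := exists_divBase_eq_of_fixed S G K L hur y.2
    (fun g => congrArg Prod.snd (hy g))
  exact ⟨(u, d), Prod.ext hu hd⟩

lemma exists_lBase_eq_of_fixed (x : Additive Lˣ) (hx : ∀ g : G, lRepr G L g x = x) :
    ∃ x' : Additive Kˣ, lBase K L x' = x := by
  obtain ⟨k, hk⟩ := exists_algebraMap_eq_of_fixed G K L ((x.toMul : Lˣ) : L) (fun g => by
    rw [← coe_lRepr_apply, hx g])
  have hk0 : k ≠ 0 := by
    rintro rfl
    rw [map_zero] at hk
    exact (x.toMul : Lˣ).ne_zero hk.symm
  refine ⟨Additive.ofMul (Units.mk0 k hk0), ?_⟩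
  apply Additive.toMul.injective
  apply Units.ext
  rw [coe_lBase_apply]
  exact hk

/-- The image of `C_S(K)` in `C_S(L)` consists of `G`-invariant classes. -/
theorem cRepr_cBase (g : G) (c : CS S K) : cRepr S G L g (cBase S K L c) = cBase S K L c := by
  obtain ⟨y, rfl⟩ := Submodule.Quotient.mk_surjective _ c
  rw [cBase_mk, cRepr_mk, jdRepr_jdBase]

include G in
/-- **Galois descent, injectivity**: `C_S(K) → C_S(L)` is injective (`S ≠ ∅`). -/
theorem cBase_injective (hS : S.Nonempty) : Function.Injective (cBase S K L) := by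
  rw [injective_iff_map_eq_zero]
  intro c hc
  obtain ⟨y, rfl⟩ := Submodule.Quotient.mk_surjective _ c
  rw [cBase_mk, Submodule.Quotient.mk_eq_zero] at hc
  obtain ⟨x, hx⟩ := hc
  change diagHom S L x = jdBase S K L y at hx
  have hfix : ∀ g : G, lRepr G L g x = x := by
    intro g
    apply diagHom_injective S L hS
    rw [diagHom_equivariant, hx, jdRepr_jdBase]
  obtain ⟨x', rfl⟩ := exists_lBase_eq_of_fixed G K L x hfix
  rw [← jdBase_diagHom] at hx
  have := jdBase_injective S G K L hx
  rw [Submodule.Quotient.mk_eq_zero]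
  exact ⟨x', this⟩

/-- **Galois descent, surjectivity**: every `G`-invariant class of `C_S(L)` comes from `C_S(K)`
(`S ≠ ∅`, `L/K` unramified outside `S`). -/
theorem exists_cBase_eq_of_fixed (hS : S.Nonempty) (hur : ∀ w : PrimeOut S L, eAt K w.1 = 1)
    (c : CS S L) (hc : ∀ g : G, cRepr S G L g c = c) : ∃ c' : CS S K, cBase S K L c' = c := by
  obtain ⟨y, rfl⟩ := Submodule.Quotient.mk_surjective _ c
  have h1 : ∀ g : G, ∃ x : Additive Lˣ, diagHom S L x = jdRepr S G L g y - y := by
    intro g
    have := hc g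
    rw [cRepr_mk, Submodule.Quotient.eq] at this
    exact this
  choose x hx using h1
  have hcoc : ∀ g h : G, x (g * h) = x g + lRepr G L g (x h) := by
    intro g h
    apply diagHom_injective S L hS
    rw [map_add, diagHom_equivariant, hx, hx, hx, map_sub, map_mul]
    change jdRepr S G L g (jdRepr S G L h y) - y = _
    abel
  obtain ⟨β, hβ⟩ := hilbert90 G K L x hcoc
  have hfix : ∀ g : G, jdRepr S G L g (y - diagHom S L β) = y - diagHom S L β := by
    intro g
    have h2 := hx g
    rw [hβ g, map_sub, diagHom_equivariant] at h2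
    rw [map_sub]
    rw [sub_eq_sub_iff_add_eq_add] at h2 ⊢
    rw [← h2]
    abel
  obtain ⟨y', hy'⟩ := exists_jdBase_eq_of_fixed S G K L hur _ hfix
  refine ⟨Submodule.Quotient.mk y', ?_⟩
  rw [cBase_mk, hy', Submodule.Quotient.eq]
  refine ⟨-β, ?_⟩
  change diagHom S L (-β) = _
  rw [map_neg]
  abel

/-- **Galois descent** for the `S`-idèle class group: the image of `C_S(K) → C_S(L)` is
exactly `C_S(L)^G`. -/
theorem mem_range_cBase_iff (hS : S.Nonempty) (hur : ∀ w : PrimeOut S L, eAt K w.1 = 1)
    (c : CS S L) : c ∈ (cBase S K L).range ↔ ∀ g : G, cRepr S G L g c = c :=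
  ⟨by rintro ⟨c', rfl⟩ g; exact cRepr_cBase S G K L g c',
    exists_cBase_eq_of_fixed S G K L hS hur c⟩

/-- **Galois descent** as an isomorphism `C_S(K) ≃ C_S(L)^G`. -/
def descEquiv (hS : S.Nonempty) (hur : ∀ w : PrimeOut S L, eAt K w.1 = 1) :
    CS S K ≃ₗ[ℤ] (cRepr S G L).invariants :=
  LinearEquiv.ofBijective
    ((cBaseₗ S K L).codRestrict (cRepr S G L).invariants
      (fun c g => cRepr_cBase S G K L g c))
    ⟨fun a b h => cBase_injective S G K L hS (congrArg Subtype.val h),
      fun c => by
        obtain ⟨c', hc'⟩ := exists_cBase_eq_of_fixed S G K L hS hur c.1 c.2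
        exact ⟨c', Subtype.ext hc'⟩⟩

@[simp] lemma descEquiv_apply (hS : S.Nonempty) (hur : ∀ w : PrimeOut S L, eAt K w.1 = 1)
    (c : CS S K) : ((descEquiv S G K L hS hur c : (cRepr S G L).invariants) : CS S L) =
      cBase S K L c := rfl

end Main

end Fermat.Agent.S55.G.DescH773
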