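/-
S55 (Poitou–Tate), layer G, leaf G-DESC (helper773), part 3:

* `eAt_eq_card_inertia`, `eAt_eq_one_of_inertia`: the ramification index is the order of the
  inertia group (so trivial inertia outside `S` gives the hypothesis of `mem_range_cBase_iff`);
* `cBase_cRepr_of_compat`: base change `C_S(K) → C_S(L)` is equivariant for automorphisms
  `γ` of `K` and `g` of `L` compatible with `K → L`.
-/
import Fermat.Agent.S55.G.DescH773.Descent

set_option autoImplicit false
set_option linter.unusedSectionVars false
set_option linter.style.haveILetI false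

open scoped NumberField TensorProduct Pointwise
open IsDedekindDomain

noncomputable section

namespace Fermat.Agent.S55.G.DescH773

open Fermat.Agent.S55.G

/-! ## 6. Ramification index and inertia -/

section Unram

variable (G K L : Type) [Group G] [Finite G] [Field K] [NumberField K]
  [Field L] [NumberField L] [Algebra K L] [MulSemiringAction G L] [IsGaloisGroup G K L]


variable {L} in
/-- The ramification index is the order of the inertia group. -/
lemma eAt_eq_card_inertia (w : HeightOneSpectrum (𝓞 L)) :
    eAt K w = Nat.card (w.asIdeal.inertia G) := by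
  unfold eAt
  rw [Ideal.ramificationIdx'_eq_ramificationIdx _ _ (primeUnder K w).ne_bot,
    ← Ideal.ramificationIdxIn_eq_ramificationIdx (primeUnder K w).asIdeal w.asIdeal G,
    Ideal.card_inertia_eq_ramificationIdxIn (G := G) (primeUnder K w).asIdeal w.asIdeal]

variable {L} in
/-- If the inertia group at `w` is trivial then `w` is unramified over `K`. -/
lemma eAt_eq_one_of_inertia (w : HeightOneSpectrum (𝓞 L))
    (h : ∀ g : G, (∀ x : 𝓞 L, g • x - x ∈ w.asIdeal) → g = 1) : eAt K w = 1 := by
  rw [eAt_eq_card_inertia G K w]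
  have : w.asIdeal.inertia G = ⊥ := by
    rw [eq_bot_iff]
    intro g hg
    exact h g hg
  rw [this]
  simp

end Unram

/-! ## 7. Equivariance of base change

`γ ∈ Γ` acts on `K`, `g ∈ G` acts on `L`, compatibly with `K → L`. -/

section Compat

variable (S : Finset Nat.Primes) (Γ G K L : Type) [Group Γ] [Group G] [Field K] [NumberField K]
  [Field L] [NumberField L] [Algebra K L] [MulSemiringAction Γ K] [MulSemiringAction G L]
  (γ : Γ) (g : G) (hc : ∀ k : K, algebraMap K L (γ • k) = g • algebraMap K L k)

include hc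

lemma asBase_asAut_of_compat (t : AS S K) :
    asBase S K L (asAut S Γ K γ t) = asAut S G L g (asBase S K L t) := by
  induction t using TensorProduct.induction_on with
  | zero => simp
  | tmul a b => simp [hc]
  | add a b ha hb => simp only [map_add, ha, hb]

lemma jBase_jRepr_of_compat (u : Additive (AS S K)ˣ) :
    jBase S K L (jRepr Γ S K γ u) = jRepr G S L g (jBase S K L u) := by
  apply Additive.toMul.injective
  apply Units.ext
  rw [coe_jBase_apply, coe_jRepr_apply, coe_jRepr_apply, coe_jBase_apply,
    asBase_asAut_of_compat S Γ G K L γ g hc]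

lemma lBase_lRepr_of_compat (x : Additive Kˣ) :
    lBase K L (lRepr Γ K γ x) = lRepr G L g (lBase K L x) := by
  apply Additive.toMul.injective
  apply Units.ext
  rw [coe_lBase_apply, coe_lRepr_apply, coe_lRepr_apply, coe_lBase_apply, hc]

lemma algebraMap_int_of_compat (x : 𝓞 K) :
    algebraMap (𝓞 K) (𝓞 L) (γ • x) = g • algebraMap (𝓞 K) (𝓞 L) x := by
  apply Subtype.ext
  exact hc x

lemma algebraMap_int_of_compat_inv (x : 𝓞 K) :
    algebraMap (𝓞 K) (𝓞 L) (γ⁻¹ • x) = g⁻¹ • algebraMap (𝓞 K) (𝓞 L) x := by
  have := algebraMap_int_of_compat Γ G K L γ g hc (γ⁻¹ • x)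
  rw [smul_inv_smul] at this
  rw [this, inv_smul_smul]

variable {L} in
lemma primeUnder_primeSMul_of_compat (w : HeightOneSpectrum (𝓞 L)) :
    primeUnder K (primeSMul G g w) = primeSMul Γ γ (primeUnder K w) := by
  apply HeightOneSpectrum.ext
  ext x
  rw [mem_primeUnder_iff, mem_primeSMul_iff, mem_primeSMul_iff, mem_primeUnder_iff,
    algebraMap_int_of_compat_inv Γ G K L γ g hc]

lemma primeOutUnder_primeOutMap_of_compat (w : PrimeOut S L) :
    primeOutUnder S K L (primeOutMap S G L g w) =
      primeOutMap S Γ K γ (primeOutUnder S K L w) :=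
  Subtype.ext (primeUnder_primeSMul_of_compat Γ G K γ g hc w.1)

variable {L} in
lemma eAt_primeSMul_of_compat (w : HeightOneSpectrum (𝓞 L)) :
    eAt K (primeSMul G g w) = eAt K w := by
  obtain ⟨π, hπ⟩ := (primeUnder K w).valuation_exists_uniformizer K
  have hπ0 : π ≠ 0 := by
    rintro rfl
    rw [map_zero] at hπ
    exact WithZero.exp_ne_zero hπ.symm
  let x : Additive Kˣ := Additive.ofMul (Units.mk0 π hπ0)
  have h1 := ordAt_primeSMul G g w (lBase K L x)
  rw [← lBase_lRepr_of_compat Γ G K L γ g hc, ordAt_lBase, ordAt_lBase,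
    primeUnder_primeSMul_of_compat Γ G K γ g hc, ordAt_primeSMul] at h1
  have h2 : ordAt (primeUnder K w) x ≠ 0 := by
    rw [ordAt_apply]
    change -WithZero.log ((primeUnder K w).valuation K π) ≠ 0
    rw [hπ]
    simp
  exact_mod_cast mul_right_cancel₀ h2 h1

lemma divBase_divRepr_of_compat (d : PrimeOut S K →₀ ℤ) :
    divBase S K L (divRepr S Γ K γ d) = divRepr S G L g (divBase S K L d) := by
  ext w
  have hw : w = primeOutMap S G L g (primeOutMap S G L g⁻¹ w) := by
    rw [← primeOutMap_mul, mul_inv_cancel, primeOutMap_one]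
  conv_lhs => rw [hw]
  conv_rhs => rw [hw]
  rw [divRepr_apply_apply, divBase_apply, divBase_apply,
    primeOutUnder_primeOutMap_of_compat S Γ G K L γ g hc, divRepr_apply_apply,
    primeOutMap_val, eAt_primeSMul_of_compat Γ G K γ g hc]

lemma jdBase_jdRepr_of_compat (y : JD S K) :
    jdBase S K L (jdRepr S Γ K γ y) = jdRepr S G L g (jdBase S K L y) :=
  Prod.ext (jBase_jRepr_of_compat S Γ G K L γ g hc y.1)
    (divBase_divRepr_of_compat S Γ G K L γ g hc y.2)

/-- Base change `C_S(K) → C_S(L)` is equivariant for compatible automorphisms. -/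
theorem cBase_cRepr_of_compat (c : CS S K) :
    cBase S K L (cRepr S Γ K γ c) = cRepr S G L g (cBase S K L c) := by
  obtain ⟨y, rfl⟩ := Submodule.Quotient.mk_surjective _ c
  rw [cRepr_mk, cBase_mk, cBase_mk, cRepr_mk, jdBase_jdRepr_of_compat S Γ G K L γ g hc]

end Compat

end Fermat.Agent.S55.G.DescH773
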