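/-
S55 (Poitou–Tate), layer G, leaf G-DESC (helper773), final assembly:

  `theorem descentSpec : Fermat.Agent.S55.G.DescentSpec`

(the interface statement of `Fermat/Agent/S55/G/Spec.lean`).  With `ι := cBase S L' L`:
injectivity and the description of the image are `cBase_injective`, `mem_range_cBase_iff`
(file `Descent.lean`) for the group `N`, which is a Galois group of `L/L'`; trivial inertia
outside `S` gives ramification index `1` (`eAt_eq_one_of_inertia`); equivariance for `G ⧸ N` is
`cBase_cRepr_of_compat` (file `Equiv.lean`).
-/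
import Fermat.Agent.S55.G.DescH773.Equiv
import Fermat.Agent.S55.G.Spec

set_option autoImplicit false
set_option linter.unusedSectionVars false
set_option linter.style.haveILetI false

open scoped NumberField TensorProduct Pointwise
open IsDedekindDomain

noncomputable section

namespace Fermat.Agent.S55.G.DescH773

open Fermat.Agent.S55.G

/-! ## 8. Restriction of the action to a subgroup -/

section Sub

variable (S : Finset Nat.Primes) (G L : Type) [Group G] [Field L] [NumberField L]
  [MulSemiringAction G L] (N : Subgroup G)

lemma asAut_subgroup (n : N) (t : AS S L) : asAut S N L n t = asAut S G L (n : G) t := by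
  induction t using TensorProduct.induction_on with
  | zero => simp
  | tmul a b => simp only [asAut_tmul]; rfl
  | add a b ha hb => simp only [map_add, ha, hb]

lemma jRepr_subgroup (n : N) (u : Additive (AS S L)ˣ) :
    jRepr N S L n u = jRepr G S L (n : G) u := by
  apply Additive.toMul.injective
  apply Units.ext
  rw [coe_jRepr_apply, coe_jRepr_apply, asAut_subgroup]

variable {L} in
lemma primeSMul_subgroup (n : N) (w : HeightOneSpectrum (𝓞 L)) :
    primeSMul N n w = primeSMul G (n : G) w := by
  apply HeightOneSpectrum.ext
  ext x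
  rw [mem_primeSMul_iff, mem_primeSMul_iff]
  rfl

lemma primeOutMap_subgroup (n : N) (w : PrimeOut S L) :
    primeOutMap S N L n w = primeOutMap S G L (n : G) w :=
  Subtype.ext (primeSMul_subgroup G N n w.1)

lemma divRepr_subgroup (n : N) (d : PrimeOut S L →₀ ℤ) :
    divRepr S N L n d = divRepr S G L (n : G) d := by
  have : primeOutMap S N L n = primeOutMap S G L (n : G) :=
    funext (primeOutMap_subgroup S G L N n)
  simp only [divRepr, MonoidHom.coe_mk, OneHom.coe_mk, this]

lemma cRepr_subgroup (n : N) (c : CS S L) :
    cRepr S N L n c = cRepr S G L (n : G) c := by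
  obtain ⟨y, rfl⟩ := Submodule.Quotient.mk_surjective _ c
  rw [cRepr_mk, cRepr_mk, jdRepr_apply, jdRepr_apply, jRepr_subgroup, divRepr_subgroup]

end Sub

/-- **G-DESC**: Galois descent for the `S`-idèle class group, in the form of the layer-G
interface `Fermat.Agent.S55.G.DescentSpec`. -/
theorem descentSpec : DescentSpec := by
  intro S G L L' _ _ _ _ _ _ _ _ _ N _ _ hS hur hfix hcompat
  have hfixN : ∀ (n : N) (k : L'), (n : G) • algebraMap L' L k = algebraMap L' L k := by
    intro n k
    exact ((hfix (algebraMap L' L k)).2 ⟨k, rfl⟩) n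
  haveI hGal : IsGaloisGroup N L' L :=
    { faithful := ⟨fun {a b} h => Subtype.ext (eq_of_smul_eq_smul (α := L) fun x => h x)⟩
      commutes := ⟨fun n k x => by
        change (n : G) • (k • x) = k • ((n : G) • x)
        rw [Algebra.smul_def, Algebra.smul_def, smul_mul', hfixN]⟩
      isInvariant := ⟨fun x hx => by
        obtain ⟨k, hk⟩ := (hfix x).1 hx
        exact ⟨k, hk⟩⟩ }
  have he : ∀ w : PrimeOut S L, eAt L' w.1 = 1 := by
    intro w
    refine eAt_eq_one_of_inertia N L' w.1 fun n hn => ?_
    have h1 : ∀ x : L, (n : G) • x = x := hur w.1 w.2 (n : G) hn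
    have h2 : (n : G) = 1 := eq_of_smul_eq_smul (α := L) fun x => by rw [h1 x, one_smul]
    exact Subtype.ext h2
  refine ⟨cBase S L' L, cBase_injective S N L' L hS, ?_, ?_, ?_⟩
  · intro g c
    exact cBase_cRepr_of_compat S (G ⧸ N) G L' L (g : G ⧸ N) g (hcompat g) c
  · intro c
    have := mem_range_cBase_iff S N L' L hS he c
    constructor
    · intro h
      have h' : ∀ n : N, cRepr S N L n c = c := fun n => by rw [cRepr_subgroup]; exact h n
      obtain ⟨c', hc'⟩ := this.2 h'
      exact ⟨c', hc'⟩
    · rintro ⟨c', rfl⟩ n
      rw [← cRepr_subgroup]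
      exact cRepr_cBase S N L' L n c'
  · intro y
    change cBase S L' L (Submodule.Quotient.mk (y, 0)) = Submodule.Quotient.mk (jMap S L' L y, 0)
    rw [cBase_mk]
    congr 1
    exact Prod.ext rfl (map_zero (divBase S L' L))

end Fermat.Agent.S55.G.DescH773
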